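import Fermat.Agent.S55.Lib.HerbrandCyclic

/-!
# Herbrand quotient of finitely generated `C_p`-modules in terms of ranks
-/

set_option autoImplicit false

open Module

namespace Fermat.Agent.S55.Herbrand

variable {A B C : Type*} [AddCommGroup A] [AddCommGroup B] [AddCommGroup C]

lemma hexact_mulN (i : A →+ B) (π : B →+ C) (hi : Function.Injective i)
    (hπ : Function.Surjective π) (hex : i.range = π.ker) (n : ℕ) :
    HExact (zp (mulN A n)) (zp (mulN B n)) (zp (mulN C n)) i π where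
  inj := hi
  surj := hπ
  exact := hex
  fi := fun _ => by simp [zp]
  gi := fun a => by simp [zp, map_nsmul]
  fπ := fun _ => by simp [zp]
  gπ := fun b => by simp [zp, map_nsmul]

theorem zp_mulN_free (F : Type*) [AddCommGroup F] [Module.Free ℤ F] [Module.Finite ℤ F]
    {p : ℕ} (hp : p ≠ 0) :
    (zp (mulN F p)).h0 = p ^ finrank ℤ F ∧ (zp (mulN F p)).h1 = 1 := by
  have hinj : Function.Injective ((p : ℤ) • (LinearMap.id : F →ₗ[ℤ] F)) := by
    intro x y hxy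
    simp only [LinearMap.smul_apply, LinearMap.id_coe, id_eq] at hxy
    exact smul_right_injective F (Int.natCast_ne_zero.2 hp) hxy
  constructor
  · rw [zp_h0]
    set φ : F →ₗ[ℤ] F := (p : ℤ) • (LinearMap.id : F →ₗ[ℤ] F) with hφ
    set N : Submodule ℤ F := LinearMap.range φ with hN
    let e : F ≃ₗ[ℤ] N := LinearEquiv.ofInjective φ hinj
    have h1 := Submodule.natAbs_det_equiv N e
    have h2 : N.subtype ∘ₗ AddMonoidHom.toIntLinearMap (e : F →+ N) = φ := by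
      ext x; rfl
    rw [h2, hφ, LinearMap.det_smul, LinearMap.det_id, mul_one, Int.natAbs_pow,
      Int.natAbs_natCast] at h1
    rw [h1]
    have h3 : (mulN F p).range = N.toAddSubgroup := by
      ext x
      constructor
      · rintro ⟨a, rfl⟩
        exact ⟨a, by simp [hφ]⟩
      · rintro ⟨a, rfl⟩
        exact ⟨a, by simp [hφ]⟩
    rw [h3]
    rfl
  · rw [zp_h1]
    have : (mulN F p).ker = ⊥ := by
      rw [AddMonoidHom.ker_eq_bot_iff]
      intro x y hxy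
      apply hinj
      simpa using hxy
    rw [this]
    simp

theorem zp_mulN_fg (A : Type*) [AddCommGroup A] [Module.Finite ℤ A] {p : ℕ} (hp : p ≠ 0) :
    (zp (mulN A p)).Fin ∧ (zp (mulN A p)).q = (p : ℚ) ^ finrank ℤ A := by
  set T : Submodule ℤ A := Submodule.torsion ℤ A with hT
  have hTfin : Finite T := by
    have : Module.Finite ℤ T := Module.Finite.of_injective T.subtype Subtype.val_injective
    exact Module.finite_of_fg_torsion T (Submodule.torsion_isTorsion)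
  have hfree : Module.Free ℤ (A ⧸ T) := Module.free_of_finite_type_torsion_free'
  have E := hexact_mulN (T.subtype.toAddMonoidHom) (T.mkQ.toAddMonoidHom) Subtype.val_injective
    (Submodule.mkQ_surjective T) (by
      ext x
      constructor
      · rintro ⟨a, rfl⟩
        show T.mkQ a = 0
        simp
      · intro hx
        have : T.mkQ x = 0 := hx
        rw [Submodule.mkQ_apply, Submodule.Quotient.mk_eq_zero] at this
        exact ⟨⟨x, this⟩, rfl⟩) p
  obtain ⟨f0, f1⟩ := zp_mulN_free (A ⧸ T) hp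
  have hF : (zp (mulN (A ⧸ T) p)).Fin := by
    refine ⟨?_, ?_⟩
    · rw [f0]; exact pow_ne_zero _ hp
    · rw [f1]; exact one_ne_zero
  have hTf : (zp (mulN T p)).Fin := HPair.fin_of_finite _
  refine ⟨E.fin_mid hTf hF, ?_⟩
  rw [E.q_mul hTf hF, HPair.q_of_finite, one_mul, HPair.q, f0, f1,
    finrank_quotient_eq_of_le_torsion le_rfl]
  simp

variable {σ : A →+ A} {p : ℕ} (hσ : ∀ a, σ^[p] a = a)

/-- **Rank formula**: `h(A)^(p-1) * p^(rank A) = p^(p * rank A^σ)`. -/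
theorem rank_formula [hp : Fact p.Prime] [Module.Finite ℤ A] :
    (cyc σ p hσ).Fin ∧
      (cyc σ p hσ).q ^ (p - 1) * (p : ℚ) ^ finrank ℤ A = (p : ℚ) ^ (p * finrank ℤ (Dop σ).ker) := by
  have hp0 : p ≠ 0 := hp.out.ne_zero
  obtain ⟨a1, a2⟩ := zp_mulN_fg A hp0
  have : Module.Finite ℤ (Dop σ).ker :=
    Module.Finite.of_injective ((Dop σ).ker.subtype.toIntLinearMap) Subtype.val_injective
  obtain ⟨b1, b2⟩ := zp_mulN_fg (Dop σ).ker hp0
  obtain ⟨t1, _, t3⟩ := tate_lemma hσ a1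
  refine ⟨t1, ?_⟩
  rw [a2, b2] at t3
  rw [t3, ← pow_mul, mul_comm]

/-- Practical form: if `p * rank A^σ + (p-1) d = rank A + (p-1) c` then `|Ĥ⁰| p^d = p^c |H¹|`. -/
theorem h0_mul_eq_of_rank [hp : Fact p.Prime] [Module.Finite ℤ A] {c d : ℕ}
    (h : p * finrank ℤ (Dop σ).ker + (p - 1) * d = finrank ℤ A + (p - 1) * c) :
    (cyc σ p hσ).h0 * p ^ d = p ^ c * (cyc σ p hσ).h1 := by
  obtain ⟨hfin, hq⟩ := rank_formula (A := A) hσ
  have hp0 : (p : ℚ) ≠ 0 := Nat.cast_ne_zero.2 hp.out.ne_zero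
  have hppos : (0 : ℚ) < p := Nat.cast_pos.2 hp.out.pos
  have hp1 : p - 1 ≠ 0 := by have := hp.out.two_le; omega
  have e1 : ((cyc σ p hσ).q * (p : ℚ) ^ d) ^ (p - 1) = ((p : ℚ) ^ c) ^ (p - 1) := by
    have hn : (p : ℚ) ^ finrank ℤ A ≠ 0 := pow_ne_zero _ hp0
    apply mul_right_cancel₀ hn
    calc ((cyc σ p hσ).q * (p : ℚ) ^ d) ^ (p - 1) * (p : ℚ) ^ finrank ℤ A
        = ((cyc σ p hσ).q ^ (p - 1) * (p : ℚ) ^ finrank ℤ A) * (p : ℚ) ^ ((p - 1) * d) := by
          rw [mul_pow, ← pow_mul, mul_comm d]; ring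
      _ = (p : ℚ) ^ (p * finrank ℤ (Dop σ).ker + (p - 1) * d) := by rw [hq, pow_add]
      _ = (p : ℚ) ^ (finrank ℤ A + (p - 1) * c) := by rw [h]
      _ = ((p : ℚ) ^ c) ^ (p - 1) * (p : ℚ) ^ finrank ℤ A := by
          rw [pow_add, ← pow_mul, mul_comm c]; ring
  have e2 : (cyc σ p hσ).q * (p : ℚ) ^ d = (p : ℚ) ^ c :=
    (pow_left_inj₀ (mul_pos (HPair.q_pos hfin) (pow_pos hppos d)).le (pow_pos hppos c).le hp1).1 e1
  have h1 : ((cyc σ p hσ).h1 : ℚ) ≠ 0 := Nat.cast_ne_zero.2 hfin.2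
  rw [HPair.q, div_mul_eq_mul_div, div_eq_iff h1] at e2
  exact_mod_cast e2

/-- The classical shape: `a = rank A^σ`, `rank A = a + (p-1) b` ⟹ `|Ĥ⁰| p^b = p^a |H¹|`. -/
theorem h0_mul_pow_eq [hp : Fact p.Prime] [Module.Finite ℤ A] {a b : ℕ}
    (ha : finrank ℤ (Dop σ).ker = a) (hb : finrank ℤ A = a + (p - 1) * b) :
    (cyc σ p hσ).h0 * p ^ b = p ^ a * (cyc σ p hσ).h1 := by
  apply h0_mul_eq_of_rank hσ
  rw [ha, hb]
  obtain ⟨m, rfl⟩ : ∃ m, p = m + 1 := ⟨p - 1, (Nat.sub_add_cancel hp.out.one_le).symm⟩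
  simp only [Nat.add_sub_cancel]
  ring

lemma cyc_h0 : (cyc σ p hσ).h0 = (Nop σ p).range.relIndex (Dop σ).ker := rfl
lemma cyc_h1 : (cyc σ p hσ).h1 = (Dop σ).range.relIndex (Nop σ p).ker := rfl

end Fermat.Agent.S55.Herbrand
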