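import Mathlib

/-!
# Herbrand quotients (q-indices) of abelian groups, elementary version

For endomorphisms `f g : A →+ A` with `f ∘ g = 0 = g ∘ f` we put
`idx f g = [ker f : im g]` (a natural number, `0` if the index is infinite).
The Herbrand quotient is `idx f g / idx g f`; we never divide, all statements are products.
-/

set_option autoImplicit false

namespace Fermat.Agent.S55.Herbrand

variable {A B C : Type*} [AddCommGroup A] [AddCommGroup B] [AddCommGroup C]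

/-- `[ker f : im g]`, `0` if infinite. -/
noncomputable def idx (f g : A →+ A) : ℕ := g.range.relIndex f.ker

/-- `[i⁻¹(im gB) : im gA]`. -/
noncomputable def kidx (i : A →+ B) (gA : A →+ A) (gB : B →+ B) : ℕ :=
  gA.range.relIndex (gB.range.comap i)

lemma idx_def (f g : A →+ A) : idx f g = g.range.relIndex f.ker := rfl

section key

variable (i : A →+ B) (π : B →+ C)
  (fA gA : A →+ A) (fB gB : B →+ B) (fC gC : C →+ C)

/-- first half: `[ker fA : im gA] = [i⁻¹ im gB : im gA] * [ker fA : i⁻¹ im gB]`. -/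
lemma idx_eq_kidx_mul (hi : Function.Injective i)
    (hfi : ∀ a, i (fA a) = fB (i a)) (hgi : ∀ a, i (gA a) = gB (i a))
    (hfg : ∀ b, fB (gB b) = 0) :
    idx fA gA = kidx i gA gB * (gB.range.comap i).relIndex fA.ker := by
  rw [idx, kidx]
  refine (AddSubgroup.relIndex_mul_relIndex _ _ _ ?_ ?_).symm
  · rintro _ ⟨a, rfl⟩
    exact ⟨i a, (hgi a).symm⟩
  · rintro a ⟨b, hb⟩
    rw [AddMonoidHom.mem_ker]
    apply hi
    rw [hfi, ← hb, hfg, map_zero]

lemma map_range_eq (hπ : Function.Surjective π) (hgπ : ∀ b, π (gB b) = gC (π b)) :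
    gB.range.map π = gC.range := by
  ext c
  constructor
  · rintro ⟨_, ⟨b, rfl⟩, rfl⟩
    exact ⟨π b, (hgπ b).symm⟩
  · rintro ⟨c, rfl⟩
    obtain ⟨b, rfl⟩ := hπ c
    exact ⟨gB b, ⟨b, rfl⟩, hgπ b⟩

/-- second: `[ker fB : im gB] = [ker fA : i⁻¹ im gB] * [π (ker fB) : im gC]`. -/
lemma idx_mid (hi : Function.Injective i) (hπ : Function.Surjective π)
    (hex : i.range = π.ker)
    (hfi : ∀ a, i (fA a) = fB (i a))
    (hgπ : ∀ b, π (gB b) = gC (π b))
    (hfg : ∀ b, fB (gB b) = 0) :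
    idx fB gB = (gB.range.comap i).relIndex fA.ker * gC.range.relIndex (fB.ker.map π) := by
  have hle : gB.range ≤ fB.ker := by
    rintro _ ⟨b, rfl⟩; exact hfg b
  have hker : π.ker ⊓ fB.ker = fA.ker.map i := by
    ext b
    constructor
    · rintro ⟨h1, h2⟩
      rw [← hex] at h1
      obtain ⟨a, rfl⟩ := h1
      refine ⟨a, ?_, rfl⟩
      rw [SetLike.mem_coe, AddMonoidHom.mem_ker]
      apply hi
      rw [hfi, map_zero]
      exact h2
    · rintro ⟨a, ha, rfl⟩
      refine ⟨hex ▸ ⟨a, rfl⟩, ?_⟩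
      rw [SetLike.mem_coe, AddMonoidHom.mem_ker] at ha
      show fB (i a) = 0
      rw [← hfi, ha, map_zero]
  have h1 : gC.range.relIndex (fB.ker.map π) = (gB.range ⊔ fA.ker.map i).relIndex fB.ker := by
    rw [← AddSubgroup.relIndex_comap, ← map_range_eq π gB gC hπ hgπ, AddSubgroup.comap_map_eq,
      ← AddSubgroup.inf_relIndex_right, sup_inf_assoc_of_le _ hle, hker]
  have h2 : (gB.range.comap i).relIndex fA.ker = gB.range.relIndex (gB.range ⊔ fA.ker.map i) := by
    rw [AddSubgroup.relIndex_comap, AddSubgroup.relIndex_sup_left]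
  rw [h1, h2, idx]
  refine (AddSubgroup.relIndex_mul_relIndex _ _ _ le_sup_left ?_).symm
  refine sup_le hle ?_
  rw [← hker]; exact inf_le_right

/-- third: `[ker fC : π (ker fB)] = [i⁻¹ im fB : im fA]`. -/
lemma relIndex_map_ker (hi : Function.Injective i) (hπ : Function.Surjective π)
    (hex : i.range = π.ker)
    (hfi : ∀ a, i (fA a) = fB (i a))
    (hfπ : ∀ b, π (fB b) = fC (π b)) :
    (fB.ker.map π).relIndex fC.ker = kidx i fA fB := by
  set Y : AddSubgroup B := fC.ker.comap π with hY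
  have hYmap : Y.map π = fC.ker := AddSubgroup.map_comap_eq_self_of_surjective hπ _
  have hkerY : π.ker ≤ Y := by
    intro b hb
    rw [hY, AddSubgroup.mem_comap, AddMonoidHom.mem_ker, (AddMonoidHom.mem_ker).1 hb, map_zero]
  have hfY : fB.ker ≤ Y := by
    intro b hb
    rw [hY, AddSubgroup.mem_comap, AddMonoidHom.mem_ker, ← hfπ, (AddMonoidHom.mem_ker).1 hb,
      map_zero]
  have e1 : (fB.ker.map π).relIndex fC.ker = (fB.ker ⊔ π.ker).relIndex Y := by
    rw [← hYmap, AddSubgroup.relIndex_map_map, sup_eq_left.2 hkerY]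
  have e2 : ((fB.ker ⊔ π.ker).map fB).relIndex (Y.map fB) = (fB.ker ⊔ π.ker).relIndex Y := by
    rw [AddSubgroup.relIndex_map_map, sup_eq_left.2 hfY,
      sup_eq_left.2 (le_sup_left : fB.ker ≤ fB.ker ⊔ π.ker)]
  have e3 : (fB.ker ⊔ π.ker).map fB = fA.range.map i := by
    ext b
    constructor
    · rintro ⟨x, hx, rfl⟩
      obtain ⟨y, hy, z, hz, rfl⟩ := AddSubgroup.mem_sup.1 hx
      rw [← hex] at hz
      obtain ⟨a, rfl⟩ := hz
      refine ⟨fA a, ⟨a, rfl⟩, ?_⟩
      rw [map_add, (AddMonoidHom.mem_ker).1 hy, zero_add, hfi]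
    · rintro ⟨_, ⟨a, rfl⟩, rfl⟩
      refine ⟨i a, AddSubgroup.mem_sup_right (hex ▸ ⟨a, rfl⟩), (hfi a).symm⟩
  have e4 : Y.map fB = (fB.range.comap i).map i := by
    ext b
    constructor
    · rintro ⟨x, hx, rfl⟩
      have : fB x ∈ π.ker := by
        rw [AddMonoidHom.mem_ker, hfπ]; exact hx
      rw [← hex] at this
      obtain ⟨a, ha⟩ := this
      exact ⟨a, ⟨x, ha.symm⟩, ha⟩
    · rintro ⟨a, ⟨x, hx⟩, rfl⟩
      refine ⟨x, ?_, hx⟩
      have h0 : π (i a) = 0 := by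
        have : i a ∈ π.ker := hex ▸ ⟨a, rfl⟩
        exact this
      show fC (π x) = 0
      rw [← hfπ, hx, h0]
  rw [e1, ← e2, e3, e4, AddSubgroup.relIndex_map_map_of_injective _ _ hi, kidx]

/-- `[ker fC : im gC] = [π ker fB : im gC] * [i⁻¹ im fB : im fA]`. -/
lemma idx_right (hi : Function.Injective i) (hπ : Function.Surjective π)
    (hex : i.range = π.ker)
    (hfi : ∀ a, i (fA a) = fB (i a))
    (hfπ : ∀ b, π (fB b) = fC (π b)) (hgπ : ∀ b, π (gB b) = gC (π b))
    (hfg : ∀ b, fB (gB b) = 0) :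
    idx fC gC = gC.range.relIndex (fB.ker.map π) * kidx i fA fB := by
  rw [← relIndex_map_ker i π fA fB fC hi hπ hex hfi hfπ, idx]
  refine (AddSubgroup.relIndex_mul_relIndex _ _ _ ?_ ?_).symm
  · rw [← map_range_eq π gB gC hπ hgπ]
    apply AddSubgroup.map_mono
    rintro _ ⟨b, rfl⟩; exact hfg b
  · rintro _ ⟨b, hb, rfl⟩
    rw [AddMonoidHom.mem_ker, ← hfπ, (AddMonoidHom.mem_ker).1 hb, map_zero]

/-- the key identity (valid in `ℕ`, with `0` = infinite). -/
lemma idx_mul_idx_eq (hi : Function.Injective i) (hπ : Function.Surjective π)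
    (hex : i.range = π.ker)
    (hfi : ∀ a, i (fA a) = fB (i a)) (hgi : ∀ a, i (gA a) = gB (i a))
    (hfπ : ∀ b, π (fB b) = fC (π b)) (hgπ : ∀ b, π (gB b) = gC (π b))
    (hfg : ∀ b, fB (gB b) = 0) :
    idx fA gA * idx fC gC = idx fB gB * (kidx i gA gB * kidx i fA fB) := by
  rw [idx_eq_kidx_mul i fA gA fB gB hi hfi hgi hfg,
    idx_right i π fA fB gB fC gC hi hπ hex hfi hfπ hgπ hfg,
    idx_mid i π fA fB gB gC hi hπ hex hfi hgπ hfg]
  ring

end key

/-! ### Packaged version -/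

/-- A pair of endomorphisms with `f ∘ g = 0 = g ∘ f`. -/
structure HPair (A : Type*) [AddCommGroup A] where
  f : A →+ A
  g : A →+ A
  fg : ∀ a, f (g a) = 0
  gf : ∀ a, g (f a) = 0

namespace HPair

/-- `|Ĥ⁰| = [ker f : im g]`. -/
noncomputable def h0 (P : HPair A) : ℕ := idx P.f P.g
/-- `|Ĥ¹| = [ker g : im f]`. -/
noncomputable def h1 (P : HPair A) : ℕ := idx P.g P.f

/-- The pair with the roles of `f` and `g` exchanged. -/
def swap (P : HPair A) : HPair A := ⟨P.g, P.f, P.gf, P.fg⟩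

@[simp] lemma swap_h0 (P : HPair A) : P.swap.h0 = P.h1 := rfl
@[simp] lemma swap_h1 (P : HPair A) : P.swap.h1 = P.h0 := rfl

/-- both indices are finite -/
def Fin (P : HPair A) : Prop := P.h0 ≠ 0 ∧ P.h1 ≠ 0

end HPair

/-- A short exact sequence `0 → A → B → C → 0` compatible with the pairs. -/
structure HExact (P : HPair A) (Q : HPair B) (R : HPair C) (i : A →+ B) (π : B →+ C) : Prop where
  inj : Function.Injective i
  surj : Function.Surjective π
  exact : i.range = π.ker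
  fi : ∀ a, i (P.f a) = Q.f (i a)
  gi : ∀ a, i (P.g a) = Q.g (i a)
  fπ : ∀ b, π (Q.f b) = R.f (π b)
  gπ : ∀ b, π (Q.g b) = R.g (π b)

namespace HExact

variable {P : HPair A} {Q : HPair B} {R : HPair C} {i : A →+ B} {π : B →+ C}

lemma swap (h : HExact P Q R i π) : HExact P.swap Q.swap R.swap i π :=
  ⟨h.inj, h.surj, h.exact, h.gi, h.fi, h.gπ, h.fπ⟩

lemma h0_mul (h : HExact P Q R i π) :
    P.h0 * R.h0 = Q.h0 * (kidx i P.g Q.g * kidx i P.f Q.f) :=
  idx_mul_idx_eq i π P.f P.g Q.f Q.g R.f R.g h.inj h.surj h.exact h.fi h.gi h.fπ h.gπ Q.fg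

lemma h1_mul (h : HExact P Q R i π) :
    P.h1 * R.h1 = Q.h1 * (kidx i P.f Q.f * kidx i P.g Q.g) :=
  h.swap.h0_mul

/-- **Multiplicativity of the Herbrand quotient** (no finiteness hypothesis: identity in `ℕ`). -/
theorem herbrand_mul (h : HExact P Q R i π) :
    P.h0 * R.h0 * Q.h1 = P.h1 * R.h1 * Q.h0 := by
  rw [h.h0_mul, h.h1_mul]; ring

lemma h0_mid_ne_zero (h : HExact P Q R i π) (hP : P.h0 ≠ 0) (hR : R.h0 ≠ 0) : Q.h0 ≠ 0 := by
  intro h0
  have := h.h0_mul
  rw [h0, zero_mul] at this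
  exact (mul_ne_zero hP hR) this

lemma fin_mid (h : HExact P Q R i π) (hP : P.Fin) (hR : R.Fin) : Q.Fin :=
  ⟨h.h0_mid_ne_zero hP.1 hR.1, h.swap.h0_mid_ne_zero hP.2 hR.2⟩

lemma h0_right_ne_zero (h : HExact P Q R i π) (hP : P.h1 ≠ 0) (hQ : Q.h0 ≠ 0) : R.h0 ≠ 0 := by
  have e1 : R.h0 = R.g.range.relIndex (Q.f.ker.map π) * kidx i P.f Q.f :=
    idx_right i π P.f Q.f Q.g R.f R.g h.inj h.surj h.exact h.fi h.fπ h.gπ Q.fg
  have e2 : Q.h0 = (Q.g.range.comap i).relIndex P.f.ker * R.g.range.relIndex (Q.f.ker.map π) :=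
    idx_mid i π P.f Q.f Q.g R.g h.inj h.surj h.exact h.fi h.gπ Q.fg
  have e3 : P.h1 = kidx i P.f Q.f * (Q.f.range.comap i).relIndex P.g.ker :=
    idx_eq_kidx_mul i P.g P.f Q.g Q.f h.inj h.gi h.fi Q.gf
  rw [e1]
  refine mul_ne_zero ?_ ?_
  · intro h0; rw [h0, mul_zero] at e2; exact hQ e2
  · intro h0; rw [h0, zero_mul] at e3; exact hP e3

lemma fin_right (h : HExact P Q R i π) (hP : P.Fin) (hQ : Q.Fin) : R.Fin :=
  ⟨h.h0_right_ne_zero hP.2 hQ.1, h.swap.h0_right_ne_zero hP.1 hQ.2⟩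

lemma h0_left_ne_zero (h : HExact P Q R i π) (hQ : Q.h0 ≠ 0) (hR : R.h1 ≠ 0) : P.h0 ≠ 0 := by
  have e1 : P.h0 = kidx i P.g Q.g * (Q.g.range.comap i).relIndex P.f.ker :=
    idx_eq_kidx_mul i P.f P.g Q.f Q.g h.inj h.fi h.gi Q.fg
  have e2 : Q.h0 = (Q.g.range.comap i).relIndex P.f.ker * R.g.range.relIndex (Q.f.ker.map π) :=
    idx_mid i π P.f Q.f Q.g R.g h.inj h.surj h.exact h.fi h.gπ Q.fg
  have e3 : R.h1 = R.f.range.relIndex (Q.g.ker.map π) * kidx i P.g Q.g :=
    idx_right i π P.g Q.g Q.f R.g R.f h.inj h.surj h.exact h.gi h.gπ h.fπ Q.gf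
  rw [e1]
  refine mul_ne_zero ?_ ?_
  · intro h0; rw [h0, mul_zero] at e3; exact hR e3
  · intro h0; rw [h0, zero_mul] at e2; exact hQ e2

lemma fin_left (h : HExact P Q R i π) (hQ : Q.Fin) (hR : R.Fin) : P.Fin :=
  ⟨h.h0_left_ne_zero hQ.1 hR.2, h.swap.h0_left_ne_zero hQ.2 hR.1⟩

end HExact

namespace HPair

/-- For a finite group the two indices agree (Herbrand quotient `1`). -/
theorem h0_eq_h1_of_finite [Finite A] (P : HPair A) : P.h0 = P.h1 := by
  have hg : P.g.range ≤ P.f.ker := by rintro _ ⟨a, rfl⟩; exact P.fg a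
  have hf : P.f.range ≤ P.g.ker := by rintro _ ⟨a, rfl⟩; exact P.gf a
  have e1 : Nat.card P.g.range * P.h0 = Nat.card P.f.ker := by
    rw [← AddSubgroup.relIndex_bot_left, ← AddSubgroup.relIndex_bot_left]
    exact AddSubgroup.relIndex_mul_relIndex _ _ _ bot_le hg
  have e2 : Nat.card P.f.range * P.h1 = Nat.card P.g.ker := by
    rw [← AddSubgroup.relIndex_bot_left, ← AddSubgroup.relIndex_bot_left]
    exact AddSubgroup.relIndex_mul_relIndex _ _ _ bot_le hf
  have e3 : Nat.card P.f.ker * Nat.card P.f.range = Nat.card A := by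
    rw [← AddSubgroup.index_ker]; exact AddSubgroup.card_mul_index _
  have e4 : Nat.card P.g.ker * Nat.card P.g.range = Nat.card A := by
    rw [← AddSubgroup.index_ker]; exact AddSubgroup.card_mul_index _
  have hpos : 0 < Nat.card P.g.range * Nat.card P.f.range :=
    Nat.mul_pos Nat.card_pos Nat.card_pos
  apply Nat.eq_of_mul_eq_mul_left hpos
  calc Nat.card P.g.range * Nat.card P.f.range * P.h0
      = (Nat.card P.g.range * P.h0) * Nat.card P.f.range := by ring
    _ = Nat.card A := by rw [e1, e3]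
    _ = (Nat.card P.f.range * P.h1) * Nat.card P.g.range := by rw [e2, e4]
    _ = Nat.card P.g.range * Nat.card P.f.range * P.h1 := by ring

lemma h0_ne_zero_of_finite [Finite A] (P : HPair A) : P.h0 ≠ 0 := by
  have : (P.g.range.addSubgroupOf P.f.ker).FiniteIndex := inferInstance
  exact this.index_ne_zero

lemma fin_of_finite [Finite A] (P : HPair A) : P.Fin :=
  ⟨P.h0_ne_zero_of_finite, P.swap.h0_ne_zero_of_finite⟩

end HPair

namespace HExact

variable {P : HPair A} {Q : HPair B} {R : HPair C} {i : A →+ B} {π : B →+ C}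

/-- finite quotient: `q(A) = q(B)`. -/
theorem herbrand_of_finite_right [Finite C] (h : HExact P Q R i π) :
    P.h0 * Q.h1 = P.h1 * Q.h0 := by
  have := h.herbrand_mul
  rw [R.h0_eq_h1_of_finite] at this
  have hR : 0 < R.h1 := Nat.pos_of_ne_zero R.fin_of_finite.2
  apply Nat.eq_of_mul_eq_mul_left hR
  calc R.h1 * (P.h0 * Q.h1) = P.h0 * R.h1 * Q.h1 := by ring
    _ = P.h1 * R.h1 * Q.h0 := this
    _ = R.h1 * (P.h1 * Q.h0) := by ring

/-- finite kernel: `q(C) = q(B)`. -/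
theorem herbrand_of_finite_left [Finite A] (h : HExact P Q R i π) :
    R.h0 * Q.h1 = R.h1 * Q.h0 := by
  have := h.herbrand_mul
  rw [P.h0_eq_h1_of_finite] at this
  have hP : 0 < P.h1 := Nat.pos_of_ne_zero P.fin_of_finite.2
  apply Nat.eq_of_mul_eq_mul_left hP
  calc P.h1 * (R.h0 * Q.h1) = P.h1 * R.h0 * Q.h1 := by ring
    _ = P.h1 * R.h1 * Q.h0 := this
    _ = P.h1 * (R.h1 * Q.h0) := by ring

lemma fin_iff_of_finite_right [Finite C] (h : HExact P Q R i π) : P.Fin ↔ Q.Fin :=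
  ⟨fun hP => h.fin_mid hP R.fin_of_finite, fun hQ => h.fin_left hQ R.fin_of_finite⟩

lemma fin_iff_of_finite_left [Finite A] (h : HExact P Q R i π) : R.Fin ↔ Q.Fin :=
  ⟨fun hR => h.fin_mid P.fin_of_finite hR, fun hQ => h.fin_right P.fin_of_finite hQ⟩

end HExact

/-! ### The rational number `q = h0 / h1` -/

namespace HPair

/-- The Herbrand quotient as a rational number (meaningful when `P.Fin`). -/
noncomputable def q (P : HPair A) : ℚ := (P.h0 : ℚ) / (P.h1 : ℚ)

lemma q_ne_zero {P : HPair A} (h : P.Fin) : P.q ≠ 0 :=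
  div_ne_zero (Nat.cast_ne_zero.2 h.1) (Nat.cast_ne_zero.2 h.2)

lemma q_pos {P : HPair A} (h : P.Fin) : 0 < P.q :=
  div_pos (Nat.cast_pos.2 (Nat.pos_of_ne_zero h.1)) (Nat.cast_pos.2 (Nat.pos_of_ne_zero h.2))

lemma swap_fin {P : HPair A} (h : P.Fin) : P.swap.Fin := ⟨h.2, h.1⟩

lemma q_swap (P : HPair A) : P.swap.q = P.q⁻¹ := by
  simp [q, inv_div]

lemma q_of_finite [Finite A] (P : HPair A) : P.q = 1 := by
  rw [q, P.h0_eq_h1_of_finite]
  exact div_self (Nat.cast_ne_zero.2 P.fin_of_finite.2)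

@[ext] lemma ext' {P Q : HPair A} (hf : P.f = Q.f) (hg : P.g = Q.g) : P = Q := by
  cases P; cases Q; simp_all

end HPair

theorem HExact.q_mul {P : HPair A} {Q : HPair B} {R : HPair C} {i : A →+ B} {π : B →+ C}
    (h : HExact P Q R i π) (hP : P.Fin) (hR : R.Fin) : Q.q = P.q * R.q := by
  have hQ := h.fin_mid hP hR
  have := h.herbrand_mul
  have h' : (P.h0 : ℚ) * R.h0 * Q.h1 = P.h1 * R.h1 * Q.h0 := by exact_mod_cast this
  have a1 : (P.h1 : ℚ) ≠ 0 := Nat.cast_ne_zero.2 hP.2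
  have a2 : (R.h1 : ℚ) ≠ 0 := Nat.cast_ne_zero.2 hR.2
  have a3 : (Q.h1 : ℚ) ≠ 0 := Nat.cast_ne_zero.2 hQ.2
  simp only [HPair.q]
  field_simp
  linarith

/-! ### Restriction of a pair to the kernel / the range of a commuting endomorphism -/

section restrict

/-- restriction of an endomorphism to a stable subgroup -/
def resEnd (S : AddSubgroup A) (φ : A →+ A) (h : ∀ a ∈ S, φ a ∈ S) : S →+ S :=
  (φ.comp S.subtype).codRestrict S (fun x => h x x.2)

@[simp] lemma resEnd_coe (S : AddSubgroup A) (φ : A →+ A) (h : ∀ a ∈ S, φ a ∈ S) (x : S) :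
    (resEnd S φ h x : A) = φ x := rfl

lemma ker_stable {D φ : A →+ A} (hc : ∀ a, φ (D a) = D (φ a)) : ∀ a ∈ D.ker, φ a ∈ D.ker := by
  intro a ha
  rw [AddMonoidHom.mem_ker] at ha ⊢
  rw [← hc, ha, map_zero]

lemma range_stable {D φ : A →+ A} (hc : ∀ a, φ (D a) = D (φ a)) :
    ∀ a ∈ D.range, φ a ∈ D.range := by
  rintro _ ⟨a, rfl⟩
  exact ⟨φ a, (hc a).symm⟩

/-- the pair induced on `ker D` -/
def HPair.onKer (Q : HPair A) (D : A →+ A) (hf : ∀ a, Q.f (D a) = D (Q.f a))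
    (hg : ∀ a, Q.g (D a) = D (Q.g a)) : HPair D.ker where
  f := resEnd _ Q.f (ker_stable hf)
  g := resEnd _ Q.g (ker_stable hg)
  fg := fun a => Subtype.ext (Q.fg a)
  gf := fun a => Subtype.ext (Q.gf a)

/-- the pair induced on `range D` -/
def HPair.onRange (Q : HPair A) (D : A →+ A) (hf : ∀ a, Q.f (D a) = D (Q.f a))
    (hg : ∀ a, Q.g (D a) = D (Q.g a)) : HPair D.range where
  f := resEnd _ Q.f (range_stable hf)
  g := resEnd _ Q.g (range_stable hg)
  fg := fun a => Subtype.ext (Q.fg a)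
  gf := fun a => Subtype.ext (Q.gf a)

theorem HPair.hexact_ker_range (Q : HPair A) (D : A →+ A) (hf : ∀ a, Q.f (D a) = D (Q.f a))
    (hg : ∀ a, Q.g (D a) = D (Q.g a)) :
    HExact (Q.onKer D hf hg) Q (Q.onRange D hf hg) D.ker.subtype D.rangeRestrict where
  inj := Subtype.val_injective
  surj := D.rangeRestrict_surjective
  exact := by
    rw [AddSubgroup.range_subtype, AddMonoidHom.ker_rangeRestrict]
  fi := fun _ => rfl
  gi := fun _ => rfl
  fπ := fun b => Subtype.ext (hf b).symm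
  gπ := fun b => Subtype.ext (hg b).symm

/-- the pair induced on a stable subgroup -/
def HPair.onSub (Q : HPair A) (S : AddSubgroup A) (hf : ∀ a ∈ S, Q.f a ∈ S)
    (hg : ∀ a ∈ S, Q.g a ∈ S) : HPair S where
  f := resEnd _ Q.f hf
  g := resEnd _ Q.g hg
  fg := fun a => Subtype.ext (Q.fg a)
  gf := fun a => Subtype.ext (Q.gf a)

/-- the pair induced on the quotient by a stable subgroup -/
def HPair.onQuot (Q : HPair A) (S : AddSubgroup A) (hf : ∀ a ∈ S, Q.f a ∈ S)
    (hg : ∀ a ∈ S, Q.g a ∈ S) : HPair (A ⧸ S) where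
  f := QuotientAddGroup.map S S Q.f (fun a ha => hf a ha)
  g := QuotientAddGroup.map S S Q.g (fun a ha => hg a ha)
  fg := by
    intro a
    induction a using QuotientAddGroup.induction_on with
    | H a =>
      show ((Q.f (Q.g a) : A) : A ⧸ S) = 0
      rw [Q.fg]; rfl
  gf := by
    intro a
    induction a using QuotientAddGroup.induction_on with
    | H a =>
      show ((Q.g (Q.f a) : A) : A ⧸ S) = 0
      rw [Q.gf]; rfl

theorem HPair.hexact_sub_quot (Q : HPair A) (S : AddSubgroup A) (hf : ∀ a ∈ S, Q.f a ∈ S)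
    (hg : ∀ a ∈ S, Q.g a ∈ S) :
    HExact (Q.onSub S hf hg) Q (Q.onQuot S hf hg) S.subtype (QuotientAddGroup.mk' S) where
  inj := Subtype.val_injective
  surj := QuotientAddGroup.mk'_surjective S
  exact := by
    rw [AddSubgroup.range_subtype, QuotientAddGroup.ker_mk']
  fi := fun _ => rfl
  gi := fun _ => rfl
  fπ := fun _ => rfl
  gπ := fun _ => rfl

end restrict

end Fermat.Agent.S55.Herbrand
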