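import Fermat.Agent.S55.Lib.HerbrandZero

/-!
# Herbrand quotient of a cyclic group of prime order: Tate's lemma (Chevalley)

`h(A)^(p-1) = q_{0,p}(A^G)^p / q_{0,p}(A)`.
-/

set_option autoImplicit false

open Polynomial Finset

namespace Fermat.Agent.S55.Herbrand

variable {A : Type*} [AddCommGroup A]

/-- multiplication by `n` -/
def mulN (A : Type*) [AddCommGroup A] (n : ℕ) : A →+ A := n • AddMonoidHom.id A

@[simp] lemma mulN_apply (n : ℕ) (a : A) : mulN A n a = n • a := rfl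

/-- view an additive endomorphism as an element of the ring `AddMonoid.End A` -/
def toEnd (σ : A →+ A) : AddMonoid.End A := σ
/-- and back -/
def ofEnd (e : AddMonoid.End A) : A →+ A := e

lemma ofEnd_apply (e : AddMonoid.End A) (a : A) : ofEnd e a = e a := rfl
lemma toEnd_apply (σ : A →+ A) (a : A) : toEnd σ a = σ a := rfl

/-- the operator `P(σ)` for an integral polynomial `P` -/
noncomputable def op (σ : A →+ A) (P : ℤ[X]) : A →+ A :=
  ofEnd (aeval (R := ℤ) (toEnd σ) P)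

lemma op_apply (σ : A →+ A) (P : ℤ[X]) (a : A) : op σ P a = (aeval (R := ℤ) (toEnd σ) P) a := rfl

lemma op_mul (σ : A →+ A) (P Q : ℤ[X]) (a : A) : op σ (P * Q) a = op σ P (op σ Q a) := by
  simp only [op_apply, map_mul]; rfl

lemma op_add (σ : A →+ A) (P Q : ℤ[X]) (a : A) : op σ (P + Q) a = op σ P a + op σ Q a := by
  simp only [op_apply, map_add]; rfl

lemma op_sub (σ : A →+ A) (P Q : ℤ[X]) (a : A) : op σ (P - Q) a = op σ P a - op σ Q a := by
  simp only [op_apply, map_sub]; rfl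

lemma op_one (σ : A →+ A) (a : A) : op σ 1 a = a := by
  simp only [op_apply, map_one]; rfl

lemma op_X (σ : A →+ A) (a : A) : op σ X a = σ a := by
  simp only [op_apply, aeval_X]; rfl

lemma op_X_pow (σ : A →+ A) (n : ℕ) (a : A) : op σ (X ^ n) a = σ^[n] a := by
  simp only [op_apply, map_pow, aeval_X]
  induction n generalizing a with
  | zero => rfl
  | succ n ih =>
    rw [pow_succ, Function.iterate_succ_apply]
    exact ih (σ a)

lemma op_natCast (σ : A →+ A) (n : ℕ) (a : A) : op σ (n : ℤ[X]) a = n • a := by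
  simp only [op_apply, map_natCast]
  exact AddMonoid.End.natCast_apply n a

lemma op_comm (σ : A →+ A) (P Q : ℤ[X]) (a : A) : op σ P (op σ Q a) = op σ Q (op σ P a) := by
  rw [← op_mul, ← op_mul, mul_comm]

lemma op_sum (σ : A →+ A) {ι : Type*} (s : Finset ι) (P : ι → ℤ[X]) (a : A) :
    op σ (∑ i ∈ s, P i) a = ∑ i ∈ s, op σ (P i) a := by
  classical
  induction s using Finset.induction_on with
  | empty =>
    simp only [Finset.sum_empty, op_apply, map_zero]; rfl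
  | insert i s hi ih => rw [Finset.sum_insert hi, Finset.sum_insert hi, op_add, ih]

/-- `σ - 1` -/
noncomputable def Dop (σ : A →+ A) : A →+ A := op σ (X - 1)
/-- `1 + σ + ... + σ^(n-1)` -/
noncomputable def Nop (σ : A →+ A) (n : ℕ) : A →+ A := op σ (∑ i ∈ range n, X ^ i)

lemma Dop_apply (σ : A →+ A) (a : A) : Dop σ a = σ a - a := by
  rw [Dop, op_sub, op_X, op_one]

lemma Nop_apply (σ : A →+ A) (n : ℕ) (a : A) : Nop σ n a = ∑ i ∈ range n, σ^[i] a := by
  rw [Nop, op_sum]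
  exact Finset.sum_congr rfl fun i _ => op_X_pow σ i a

lemma op_X_pow_sub_one (σ : A →+ A) (n : ℕ) (hσ : ∀ a, σ^[n] a = a) (a : A) :
    op σ (X ^ n - 1) a = 0 := by
  rw [op_sub, op_X_pow, op_one, hσ, sub_self]

/-- the pair `(σ - 1, N)` -/
noncomputable def cyc (σ : A →+ A) (n : ℕ) (hσ : ∀ a, σ^[n] a = a) : HPair A where
  f := Dop σ
  g := Nop σ n
  fg := fun a => by
    rw [Dop, Nop, ← op_mul, mul_geom_sum, op_X_pow_sub_one σ n hσ]
  gf := fun a => by
    rw [Dop, Nop, ← op_mul, geom_sum_mul, op_X_pow_sub_one σ n hσ]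

lemma iterate_mul_add_one (σ : A →+ A) (n : ℕ) (hσ : ∀ a, σ^[n] a = a) (m : ℕ) (a : A) :
    σ^[n * m + 1] a = σ a := by
  rw [Function.iterate_add_apply, Function.iterate_one]
  induction m with
  | zero => simp
  | succ m ih =>
    rw [Nat.mul_succ, Function.iterate_add_apply, hσ, ih]

/-- polynomial identity `∏_{j=1}^{p-1} (1 - X^j) ≡ p mod Φ_p`. -/
lemma exists_prod_eq (p : ℕ) [hp : Fact p.Prime] :
    ∃ w : ℤ[X], ∏ k ∈ range (p - 1), (1 - X ^ (k + 1) : ℤ[X])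
      = (p : ℤ[X]) + (∑ i ∈ range p, X ^ i) * w := by
  have hp0 : p ≠ 0 := hp.out.ne_zero
  have hζ : IsPrimitiveRoot (Complex.exp (2 * Real.pi * Complex.I / p)) p :=
    Complex.isPrimitiveRoot_exp p hp0
  set ζ := Complex.exp (2 * Real.pi * Complex.I / p)
  have hp1 : p - 1 + 1 = p := Nat.sub_add_cancel hp.out.one_le
  have hζ' : IsPrimitiveRoot ζ (p - 1 + 1) := by rw [hp1]; exact hζ
  have h1 := hζ'.prod_one_sub_pow_eq_order
  have hev : aeval ζ (∏ k ∈ range (p - 1), (1 - X ^ (k + 1) : ℤ[X]) - (p : ℤ[X])) = 0 := by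
    simp only [map_sub, map_prod, map_one, map_pow, aeval_X, map_natCast]
    rw [h1]
    have : ((p - 1 : ℕ) : ℂ) + 1 = (p : ℂ) := by exact_mod_cast congrArg (Nat.cast (R := ℂ)) hp1
    rw [this, sub_self]
  have hint : IsIntegral ℤ ζ := hζ.isIntegral hp.out.pos
  have hdvd := minpoly.isIntegrallyClosed_dvd hint hev
  rw [← Polynomial.cyclotomic_eq_minpoly hζ hp.out.pos, Polynomial.cyclotomic_prime] at hdvd
  obtain ⟨w, hw⟩ := hdvd
  exact ⟨w, by rw [← hw]; ring⟩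

section tate

variable (σ : A →+ A)

lemma op_Dop_comm (P : ℤ[X]) (a : A) : op σ P (Dop σ a) = Dop σ (op σ P a) := op_comm σ P _ a

/-- `P(σ)` restricted to `X = (σ - 1) A`. -/
noncomputable def opX (P : ℤ[X]) : (Dop σ).range →+ (Dop σ).range :=
  resEnd _ (op σ P) (range_stable (op_Dop_comm σ P))

lemma opX_coe (P : ℤ[X]) (x : (Dop σ).range) : (opX σ P x : A) = op σ P x := rfl

lemma opX_mul (P Q : ℤ[X]) : opX σ (P * Q) = (opX σ P).comp (opX σ Q) := by
  ext x
  exact op_mul σ P Q x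

variable {σ} {p : ℕ} (hσ : ∀ a, σ^[p] a = a)

include hσ in
lemma op_geom_range (x : (Dop σ).range) : op σ (∑ i ∈ range p, X ^ i) (x : A) = 0 := by
  obtain ⟨_, a, rfl⟩ := x
  exact (cyc σ p hσ).gf a

include hσ in
lemma opX_prod_eq [Fact p.Prime] :
    opX σ (∏ k ∈ range (p - 1), (1 - X ^ (k + 1) : ℤ[X])) = mulN _ p := by
  obtain ⟨w, hw⟩ := exists_prod_eq p
  ext x
  rw [opX_coe, hw, op_add, op_natCast, mul_comm, op_mul, op_geom_range hσ, map_zero, add_zero]
  rfl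

include hσ in
/-- `u_j = 1 + σ + ... + σ^(j-1)` is invertible on `X`. -/
lemma exists_inv_geom [hp : Fact p.Prime] {j : ℕ} (hj0 : 0 < j) (hjp : j < p) :
    ∃ v : ℤ[X], ∀ x : (Dop σ).range, op σ ((∑ i ∈ range j, X ^ i) * v) (x : A) = x := by
  have hcop : Nat.Coprime j p :=
    (Nat.coprime_comm.1 ((Nat.Prime.coprime_iff_not_dvd hp.out).2
      (fun h => absurd (Nat.le_of_dvd hj0 h) (not_le.2 hjp))))
  obtain ⟨j', hj'⟩ := Nat.exists_mul_mod_eq_one_of_coprime hcop hp.out.one_lt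
  refine ⟨∑ i ∈ range j', (X ^ j) ^ i, ?_⟩
  rintro ⟨_, a, rfl⟩
  show op σ _ (op σ (X - 1) a) = op σ (X - 1) a
  rw [← op_mul]
  have e : ((∑ i ∈ range j, X ^ i) * ∑ i ∈ range j', (X ^ j) ^ i) * (X - 1 : ℤ[X])
      = X ^ (j * j') - 1 := by
    calc ((∑ i ∈ range j, X ^ i) * ∑ i ∈ range j', (X ^ j) ^ i) * (X - 1 : ℤ[X])
        = (∑ i ∈ range j', (X ^ j) ^ i) * ((∑ i ∈ range j, X ^ i) * (X - 1)) := by ring
      _ = (∑ i ∈ range j', (X ^ j) ^ i) * (X ^ j - 1) := by rw [geom_sum_mul]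
      _ = (X ^ j) ^ j' - 1 := by rw [geom_sum_mul]
      _ = X ^ (j * j') - 1 := by rw [pow_mul]
  rw [e, op_sub, op_sub, op_X_pow, op_X]
  have : j * j' = p * (j * j' / p) + 1 := by
    have := Nat.div_add_mod (j * j') p
    omega
  rw [this, iterate_mul_add_one σ p hσ]

include hσ in
lemma zp_one_sub_pow [hp : Fact p.Prime] {j : ℕ} (hj0 : 0 < j) (hjp : j < p) :
    (zp (opX σ (1 - X ^ j))).h0 = (zp (opX σ (X - 1))).h0 ∧
    (zp (opX σ (1 - X ^ j))).h1 = (zp (opX σ (X - 1))).h1 := by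
  obtain ⟨v, hv⟩ := exists_inv_geom hσ hj0 hjp
  set u : ℤ[X] := ∑ i ∈ range j, X ^ i with hu
  have e1 : (1 - X ^ j : ℤ[X]) = (X - 1) * (-u) := by
    have := geom_sum_mul (X : ℤ[X]) j
    rw [← hu] at this
    linear_combination this
  have e2 : (1 - X ^ j : ℤ[X]) = (-u) * (X - 1) := by rw [e1, mul_comm]
  have hsurj : Function.Surjective (opX σ (-u)) := by
    intro x
    refine ⟨opX σ (-v) x, ?_⟩
    apply Subtype.ext
    rw [opX_coe, opX_coe, ← op_mul, neg_mul_neg, hv]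
  have hinj : Function.Injective (opX σ (-u)) := by
    intro x y hxy
    have h1 : opX σ (-v) (opX σ (-u) x) = x := by
      apply Subtype.ext
      rw [opX_coe, opX_coe, ← op_mul, neg_mul_neg, mul_comm, hv]
    have h2 : opX σ (-v) (opX σ (-u) y) = y := by
      apply Subtype.ext
      rw [opX_coe, opX_coe, ← op_mul, neg_mul_neg, mul_comm, hv]
    rw [← h1, ← h2, hxy]
  constructor
  · rw [e1, opX_mul]; exact zp_comp_bij_h0 _ _ hsurj
  · rw [e2, opX_mul]; exact zp_bij_comp_h1 _ _ hinj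

include hσ in
lemma zp_prod_fin_q [hp : Fact p.Prime] (hX : (zp (opX σ (X - 1))).Fin) (n : ℕ) (hn : n ≤ p - 1) :
    (zp (opX σ (∏ k ∈ range n, (1 - X ^ (k + 1) : ℤ[X])))).Fin ∧
    (zp (opX σ (∏ k ∈ range n, (1 - X ^ (k + 1) : ℤ[X])))).q = (zp (opX σ (X - 1))).q ^ n := by
  induction n with
  | zero =>
    have : opX σ (∏ k ∈ range 0, (1 - X ^ (k + 1) : ℤ[X])) = AddMonoidHom.id _ := by
      ext x
      rw [Finset.prod_range_zero, opX_coe, op_one]; rfl
    rw [this]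
    exact ⟨zp_id_fin, by rw [zp_id_q, pow_zero]⟩
  | succ n ih =>
    obtain ⟨ih1, ih2⟩ := ih (by omega)
    obtain ⟨a0, a1⟩ := zp_one_sub_pow hσ (Nat.succ_pos n) (by omega : n + 1 < p)
    have hfin : (zp (opX σ (1 - X ^ (n + 1)))).Fin := ⟨by rw [a0]; exact hX.1, by rw [a1]; exact hX.2⟩
    have hq : (zp (opX σ (1 - X ^ (n + 1)))).q = (zp (opX σ (X - 1))).q := by
      simp only [HPair.q, a0, a1]
    rw [Finset.prod_range_succ, mul_comm, opX_mul]
    refine ⟨zp_comp_fin hfin ih1, ?_⟩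
    rw [zp_comp_q hfin ih1, ih2, hq, pow_succ, mul_comm]

lemma mulN_Dop_comm (σ : A →+ A) (n : ℕ) (a : A) : mulN A n (Dop σ a) = Dop σ (mulN A n a) := by
  simp only [mulN_apply, map_nsmul]

lemma zero_Dop_comm (σ : A →+ A) (a : A) : (0 : A →+ A) (Dop σ a) = Dop σ ((0 : A →+ A) a) := by
  simp

lemma onKer_zp (σ : A →+ A) (n : ℕ) :
    (zp (mulN A n)).onKer (Dop σ) (zero_Dop_comm σ) (mulN_Dop_comm σ n)
      = zp (mulN (Dop σ).ker n) := by
  apply HPair.ext'
  · ext x; rfl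
  · ext x; rfl

lemma onRange_zp (σ : A →+ A) (n : ℕ) :
    (zp (mulN A n)).onRange (Dop σ) (zero_Dop_comm σ) (mulN_Dop_comm σ n)
      = zp (mulN (Dop σ).range n) := by
  apply HPair.ext'
  · ext x; rfl
  · ext x; rfl

lemma Nop_of_fixed {σ : A →+ A} (n : ℕ) {a : A} (ha : σ a = a) : Nop σ n a = n • a := by
  rw [Nop_apply]
  have : ∀ i ∈ range n, σ^[i] a = a := fun i _ => Function.iterate_fixed ha i
  rw [Finset.sum_congr rfl this, Finset.sum_const, Finset.card_range]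

lemma mem_ker_Dop {σ : A →+ A} {a : A} : a ∈ (Dop σ).ker ↔ σ a = a := by
  rw [AddMonoidHom.mem_ker, Dop_apply, sub_eq_zero]

lemma onKer_cyc :
    (cyc σ p hσ).onKer (Dop σ) (op_Dop_comm σ _) (op_Dop_comm σ _) = zp (mulN (Dop σ).ker p) := by
  apply HPair.ext'
  · ext x
    exact x.2
  · ext x
    exact Nop_of_fixed p (mem_ker_Dop.1 x.2)

lemma onRange_cyc :
    (cyc σ p hσ).onRange (Dop σ) (op_Dop_comm σ _) (op_Dop_comm σ _)
      = (zp (opX σ (X - 1))).swap := by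
  apply HPair.ext'
  · ext x; rfl
  · ext x
    exact op_geom_range hσ x

/-- **Tate's lemma** (Chevalley): for `G = ⟨σ⟩` of prime order `p` acting on `A`, if
`q_{0,p}(A) = [A : pA] / |A[p]|` is defined then so are `q_{0,p}(A^G)` and `h(A)`, and
`h(A)^(p-1) * q_{0,p}(A) = q_{0,p}(A^G)^p`. -/
theorem tate_lemma [hp : Fact p.Prime] (hfin : (zp (mulN A p)).Fin) :
    (cyc σ p hσ).Fin ∧ (zp (mulN (Dop σ).ker p)).Fin ∧
      (cyc σ p hσ).q ^ (p - 1) * (zp (mulN A p)).q = (zp (mulN (Dop σ).ker p)).q ^ p := by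
  have E1 := (zp (mulN A p)).hexact_ker_range (Dop σ) (zero_Dop_comm σ) (mulN_Dop_comm σ p)
  rw [onKer_zp, onRange_zp] at E1
  have E2 := (cyc σ p hσ).hexact_ker_range (Dop σ) (op_Dop_comm σ _) (op_Dop_comm σ _)
  rw [onKer_cyc hσ, onRange_cyc hσ] at E2
  have hAp : Finite (mulN A p).ker := by
    have := hfin.2
    rw [zp_h1] at this
    exact Nat.finite_of_card_ne_zero this
  -- (i)
  have hK1 : (zp (mulN (Dop σ).ker p)).h1 ≠ 0 := by
    rw [zp_h1]
    have : Finite (mulN (Dop σ).ker p).ker := by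
      refine Finite.of_injective
        (fun x : (mulN (Dop σ).ker p).ker => (⟨x.1.1, ?_⟩ : (mulN A p).ker)) ?_
      · have := x.2
        rw [AddMonoidHom.mem_ker] at this ⊢
        exact congrArg Subtype.val this
      · intro x y hxy
        apply Subtype.ext; apply Subtype.ext
        exact congrArg (fun z : (mulN A p).ker => (z : A)) hxy
    exact Nat.card_pos.ne'
  have hXp0 : (zp (mulN (Dop σ).range p)).h0 ≠ 0 := E1.h0_right_ne_zero hK1 hfin.1
  -- (ii)
  have hX0 : (zp (opX σ (X - 1))).h0 ≠ 0 := by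
    rw [zp_h0] at hXp0 ⊢
    have hle : (mulN (Dop σ).range p).range ≤ (opX σ (X - 1)).range := by
      obtain ⟨m, hm⟩ : ∃ m, p - 1 = m + 1 := ⟨p - 2, by have := hp.out.two_le; omega⟩
      rw [← opX_prod_eq hσ, hm, Finset.prod_range_succ']
      have : (∏ k ∈ range m, (1 - X ^ (k + 1 + 1) : ℤ[X])) * (1 - X ^ (0 + 1))
          = (X - 1) * (-∏ k ∈ range m, (1 - X ^ (k + 1 + 1) : ℤ[X])) := by ring
      rw [this, opX_mul]
      rintro _ ⟨x, rfl⟩
      exact ⟨_, rfl⟩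
    intro h0
    have := AddSubgroup.relIndex_mul_index hle
    rw [h0, mul_zero] at this
    exact hXp0 this.symm
  -- (iii)
  have hX1 : (zp (opX σ (X - 1))).h1 ≠ 0 := by
    rw [zp_h1]
    have : Finite (opX σ (X - 1)).ker := by
      refine Finite.of_injective
        (fun x : (opX σ (X - 1)).ker => (⟨x.1.1, ?_⟩ : (mulN A p).ker)) ?_
      · have h1 := x.2
        rw [AddMonoidHom.mem_ker] at h1 ⊢
        have h2 : Dop σ (x.1 : A) = 0 := congrArg Subtype.val h1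
        have h3 : σ (x.1 : A) = x.1 := mem_ker_Dop.1 h2
        rw [mulN_apply, ← Nop_of_fixed p h3]
        exact op_geom_range hσ x.1
      · intro x y hxy
        apply Subtype.ext; apply Subtype.ext
        exact congrArg (fun z : (mulN A p).ker => (z : A)) hxy
    exact Nat.card_pos.ne'
  have hX : (zp (opX σ (X - 1))).Fin := ⟨hX0, hX1⟩
  obtain ⟨hXfin, hXq⟩ := zp_prod_fin_q hσ hX (p - 1) le_rfl
  rw [opX_prod_eq hσ] at hXfin hXq
  have hK : (zp (mulN (Dop σ).ker p)).Fin := E1.fin_left hfin hXfin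
  have q1 := E1.q_mul hK hXfin
  have hsw := HPair.swap_fin hX
  have q2 := E2.q_mul hK hsw
  refine ⟨E2.fin_mid hK hsw, hK, ?_⟩
  rw [q2, q1, hXq, HPair.q_swap]
  have hq : (zp (opX σ (X - 1))).q ≠ 0 := HPair.q_ne_zero hX
  have hp1 : p = (p - 1) + 1 := (Nat.sub_add_cancel hp.out.one_le).symm
  set a := (zp (mulN (Dop σ).ker p)).q
  set b := (zp (opX σ (X - 1))).q
  calc (a * b⁻¹) ^ (p - 1) * (a * b ^ (p - 1))
      = a ^ (p - 1) * a * ((b⁻¹) ^ (p - 1) * b ^ (p - 1)) := by rw [mul_pow]; ring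
    _ = a ^ (p - 1) * a * 1 := by rw [← mul_pow, inv_mul_cancel₀ hq, one_pow]
    _ = a ^ p := by rw [mul_one, ← pow_succ, ← hp1]

end tate

end Fermat.Agent.S55.Herbrand
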