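import Fermat.Agent.S55.Lib.Herbrand

/-!
# The indices `q_{0,f}(A) = [A : f A] / |ker f|`
-/

set_option autoImplicit false

namespace Fermat.Agent.S55.Herbrand

variable {A B C : Type*} [AddCommGroup A] [AddCommGroup B] [AddCommGroup C]

/-- the pair `(0, f)`: `h0 = [A : f A]`, `h1 = |ker f|`. -/
def zp (f : A →+ A) : HPair A := ⟨0, f, fun _ => rfl, fun _ => map_zero f⟩

lemma zp_h0 (f : A →+ A) : (zp f).h0 = f.range.index := by
  show f.range.relIndex (0 : A →+ A).ker = _
  have : (0 : A →+ A).ker = ⊤ := by ext; simp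
  rw [this, AddSubgroup.relIndex_top_right]

lemma zp_h1 (f : A →+ A) : (zp f).h1 = Nat.card f.ker := by
  show (0 : A →+ A).range.relIndex f.ker = _
  have : (0 : A →+ A).range = ⊥ := by
    ext x; constructor
    · rintro ⟨a, rfl⟩; simp
    · intro hx; rw [AddSubgroup.mem_bot] at hx; exact ⟨0, by simp [hx]⟩
  rw [this, AddSubgroup.relIndex_bot_left]

/-- `[A : fgA] |ker f| |ker g| = [A : fA] [A : gA] |ker fg|` (identity in `ℕ`). -/
theorem zp_comp (f g : A →+ A) :
    (zp (f.comp g)).h0 * (zp f).h1 * (zp g).h1 = (zp f).h0 * (zp g).h0 * (zp (f.comp g)).h1 := by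
  simp only [zp_h0, zp_h1]
  set t := (g.range ⊔ f.ker).index with ht
  set s := (f.ker ⊓ g.range).relIndex f.ker with hs
  set r := Nat.card (f.ker ⊓ g.range : AddSubgroup A) with hr
  have e1 : (f.comp g).range.index = t * f.range.index := by
    have h1 : (f.comp g).range = g.range.map f := by
      rw [AddMonoidHom.range_eq_map, AddMonoidHom.range_eq_map, ← AddSubgroup.map_map]
    have h2 : (f.comp g).range ≤ f.range := by
      rintro _ ⟨a, rfl⟩; exact ⟨g a, rfl⟩
    rw [← AddSubgroup.relIndex_mul_index h2, h1]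
    congr 1
    rw [AddMonoidHom.range_eq_map f, AddSubgroup.relIndex_map_map, top_sup_eq,
      AddSubgroup.relIndex_top_right]
  have e2 : g.range.index = s * t := by
    rw [← AddSubgroup.relIndex_mul_index (le_sup_left : g.range ≤ g.range ⊔ f.ker)]
    congr 1
    rw [AddSubgroup.relIndex_sup_left, hs, AddSubgroup.inf_relIndex_left]
  have e3 : Nat.card f.ker = r * s := by
    rw [← AddSubgroup.relIndex_bot_left, hr, ← AddSubgroup.relIndex_bot_left]
    exact (AddSubgroup.relIndex_mul_relIndex _ _ _ bot_le inf_le_left).symm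
  have e4 : Nat.card (f.comp g).ker = Nat.card g.ker * r := by
    have hle : g.ker ≤ (f.comp g).ker := by
      intro a ha
      rw [AddMonoidHom.mem_ker] at ha ⊢
      rw [AddMonoidHom.comp_apply, ha, map_zero]
    rw [← AddSubgroup.relIndex_bot_left, ← AddSubgroup.relIndex_bot_left,
      ← AddSubgroup.relIndex_mul_relIndex _ _ _ bot_le hle, AddSubgroup.relIndex_ker]
    congr 2
    have : (f.comp g).ker.map g = f.ker ⊓ g.range := by
      ext x
      constructor
      · rintro ⟨a, ha, rfl⟩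
        exact ⟨ha, ⟨a, rfl⟩⟩
      · rintro ⟨h1, ⟨a, rfl⟩⟩
        exact ⟨a, h1, rfl⟩
    rw [this]
  rw [e1, e2, e3, e4]
  ring

lemma zp_comp_fin {f g : A →+ A} (hf : (zp f).Fin) (hg : (zp g).Fin) : (zp (f.comp g)).Fin := by
  constructor
  · rw [zp_h0]
    have h1 : (f.comp g).range = g.range.map f := by
      rw [AddMonoidHom.range_eq_map, AddMonoidHom.range_eq_map, ← AddSubgroup.map_map]
    have h2 : (f.comp g).range ≤ f.range := by
      rintro _ ⟨a, rfl⟩; exact ⟨g a, rfl⟩
    rw [← AddSubgroup.relIndex_mul_index h2]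
    refine mul_ne_zero ?_ (by rw [← zp_h0]; exact hf.1)
    rw [h1, AddMonoidHom.range_eq_map f, AddSubgroup.relIndex_map_map, top_sup_eq,
      AddSubgroup.relIndex_top_right]
    intro h0
    have := AddSubgroup.relIndex_mul_index (le_sup_left : g.range ≤ g.range ⊔ f.ker)
    rw [h0, mul_zero, ← zp_h0] at this
    exact hg.1 this.symm
  · rw [zp_h1]
    have hle : g.ker ≤ (f.comp g).ker := by
      intro a ha
      rw [AddMonoidHom.mem_ker] at ha ⊢
      rw [AddMonoidHom.comp_apply, ha, map_zero]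
    rw [← AddSubgroup.relIndex_bot_left,
      ← AddSubgroup.relIndex_mul_relIndex _ _ _ bot_le hle, AddSubgroup.relIndex_ker,
      AddSubgroup.relIndex_bot_left]
    refine mul_ne_zero (by rw [← zp_h1]; exact hg.2) ?_
    have hfin : Finite f.ker := by
      have := hf.2
      rw [zp_h1] at this
      exact Nat.finite_of_card_ne_zero this
    have hle2 : (f.comp g).ker.map g ≤ f.ker := by
      rintro _ ⟨a, ha, rfl⟩; exact ha
    have : Finite ((f.comp g).ker.map g : AddSubgroup A) :=
      Finite.of_injective (AddSubgroup.inclusion hle2) (AddSubgroup.inclusion_injective hle2)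
    exact Nat.card_pos.ne'

theorem zp_comp_q {f g : A →+ A} (hf : (zp f).Fin) (hg : (zp g).Fin) :
    (zp (f.comp g)).q = (zp f).q * (zp g).q := by
  have hfg := zp_comp_fin hf hg
  have := zp_comp f g
  have h' : ((zp (f.comp g)).h0 : ℚ) * (zp f).h1 * (zp g).h1
      = (zp f).h0 * (zp g).h0 * (zp (f.comp g)).h1 := by exact_mod_cast this
  have a1 : ((zp f).h1 : ℚ) ≠ 0 := Nat.cast_ne_zero.2 hf.2
  have a2 : ((zp g).h1 : ℚ) ≠ 0 := Nat.cast_ne_zero.2 hg.2
  have a3 : ((zp (f.comp g)).h1 : ℚ) ≠ 0 := Nat.cast_ne_zero.2 hfg.2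
  simp only [HPair.q]
  field_simp
  linarith

/-- iterate of an endomorphism -/
def iter (f : A →+ A) : ℕ → (A →+ A)
  | 0 => AddMonoidHom.id A
  | n + 1 => f.comp (iter f n)

lemma zp_id_fin : (zp (AddMonoidHom.id A)).Fin := by
  constructor
  · rw [zp_h0]
    have : (AddMonoidHom.id A).range = ⊤ := by ext x; simp
    rw [this, AddSubgroup.index_top]; exact one_ne_zero
  · rw [zp_h1]
    have : (AddMonoidHom.id A).ker = ⊥ := by ext x; simp
    rw [this]; simp

lemma zp_id_q : (zp (AddMonoidHom.id A)).q = 1 := by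
  have h0 : (zp (AddMonoidHom.id A)).h0 = 1 := by
    rw [zp_h0]
    have : (AddMonoidHom.id A).range = ⊤ := by ext x; simp
    rw [this, AddSubgroup.index_top]
  have h1 : (zp (AddMonoidHom.id A)).h1 = 1 := by
    rw [zp_h1]
    have : (AddMonoidHom.id A).ker = ⊥ := by ext x; simp
    rw [this]; simp
  simp [HPair.q, h0, h1]

lemma zp_iter_fin {f : A →+ A} (hf : (zp f).Fin) (n : ℕ) : (zp (iter f n)).Fin := by
  induction n with
  | zero => exact zp_id_fin
  | succ n ih => exact zp_comp_fin hf ih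

theorem zp_iter_q {f : A →+ A} (hf : (zp f).Fin) (n : ℕ) : (zp (iter f n)).q = (zp f).q ^ n := by
  induction n with
  | zero =>
    show (zp (AddMonoidHom.id A)).q = _
    rw [zp_id_q, pow_zero]
  | succ n ih =>
    show (zp (f.comp (iter f n))).q = _
    rw [zp_comp_q hf (zp_iter_fin hf n), ih, pow_succ, mul_comm]

/-- composing with a bijection does not change the indices -/
lemma zp_comp_bij_h0 (f e : A →+ A) (he : Function.Surjective e) :
    (zp (f.comp e)).h0 = (zp f).h0 := by
  rw [zp_h0, zp_h0]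
  congr 1
  ext x
  constructor
  · rintro ⟨a, rfl⟩; exact ⟨e a, rfl⟩
  · rintro ⟨a, rfl⟩
    obtain ⟨b, rfl⟩ := he a
    exact ⟨b, rfl⟩

lemma zp_bij_comp_h1 (f e : A →+ A) (he : Function.Injective e) :
    (zp (e.comp f)).h1 = (zp f).h1 := by
  rw [zp_h1, zp_h1]
  congr 2
  ext x
  simp only [AddMonoidHom.mem_ker, AddMonoidHom.comp_apply]
  exact ⟨fun h => he (by rw [h, map_zero]), fun h => by rw [h, map_zero]⟩

end Fermat.Agent.S55.Herbrand
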